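/-
S12 <= S15, block QUOT (architect helper9).  File `Bridge`: Velu's coordinates for the cofixed line
`C = ⟨K₀⟩` of the Frey curve, as sums over `nz C`.
-/
import Fermat.Agent.S12.Defs
import Fermat.Agent.S12.Line.Basic
import Fermat.Agent.S12.PF.Shift

set_option autoImplicit false

namespace Fermat.Agent.S12.Quot

open WeierstrassCurve Fermat.Agent.S05.XOnly Fermat.Agent.Lib.Unif
open Fermat.Agent.S13 (EPt GQ)

local notation "Qbar" => AlgebraicClosure ℚ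

variable {P : FreyPackage} {C : AddSubgroup (EPt P)} {K₀ : EPt P}

/-- (`IsLine.exists_nsmul_eq`.) -/
theorem zmultiples_eq (hC : IsLine P C) (hK₀ : K₀ ∈ nz C) : AddSubgroup.zmultiples K₀ = C := by
  apply le_antisymm
  · rw [AddSubgroup.zmultiples_le]
    exact hC.mem_of_mem_nz hK₀
  · intro K hK
    obtain ⟨k, -, rfl⟩ := hC.exists_nsmul_eq hK₀ hK
    exact AddSubgroup.nsmul_mem_zmultiples K₀ k

/-- the order of a nonzero point of the line is `p`. -/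
theorem bridge_addOrderOf (hC : IsLine P C) (hK₀ : K₀ ∈ nz C) : addOrderOf K₀ = P.p := by
  have : Fact P.p.Prime := ⟨P.pp⟩
  exact addOrderOf_eq_prime (hC.tors K₀ (hC.mem_of_mem_nz hK₀)) (hC.ne_zero_of_mem_nz hK₀)

theorem nsmul_ne_zero (hC : IsLine P C) (hK₀ : K₀ ∈ nz C) :
    ∀ i ∈ Finset.Ico 1 P.p, i • K₀ ≠ 0 := by
  intro i hi h
  rw [Finset.mem_Ico] at hi
  have h1 := addOrderOf_dvd_of_nsmul_eq_zero h
  rw [bridge_addOrderOf hC hK₀] at h1
  have := Nat.le_of_dvd (by omega) h1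
  omega

/-- **bridge** between the two ways of summing over the nonzero points of the line.
(`Finset.sum_nbij` with `i ↦ i • K₀`: maps to `nz C`, injective by `nsmul_ne_zero`, surjective by
`IsLine.exists_nsmul_eq`.) -/
theorem sum_Ico_eq_sum_nz {M : Type*} [AddCommMonoid M] (hC : IsLine P C) (hK₀ : K₀ ∈ nz C)
    (F : EPt P → M) : ∑ i ∈ Finset.Ico 1 P.p, F (i • K₀) = ∑ K ∈ nz C, F K := by
  refine Finset.sum_nbij (fun i => i • K₀) ?_ ?_ ?_ (fun _ _ => rfl)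
  · intro i hi
    exact hC.mem_nz.2 ⟨C.nsmul_mem (hC.mem_of_mem_nz hK₀) i, nsmul_ne_zero hC hK₀ i hi⟩
  · intro i hi j hj hij
    have hi' := Finset.mem_Ico.1 (Finset.mem_coe.1 hi)
    have hj' := Finset.mem_Ico.1 (Finset.mem_coe.1 hj)
    have h1 : i • K₀ = j • K₀ := hij
    rw [nsmul_eq_nsmul_iff_modEq, bridge_addOrderOf hC hK₀] at h1
    exact Nat.ModEq.eq_of_lt_of_lt h1 hi'.2 hj'.2
  · intro K hK
    have hK' := hC.mem_nz.1 (Finset.mem_coe.1 hK)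
    obtain ⟨k, hk, rfl⟩ := hC.exists_nsmul_eq hK₀ hK'.1
    refine ⟨k, Finset.mem_coe.2 (Finset.mem_Ico.2 ⟨?_, hk⟩), rfl⟩
    rcases Nat.eq_zero_or_pos k with rfl | h
    · exact absurd (zero_nsmul K₀) hK'.2
    · exact h

theorem prod_Ico_eq_prod_nz {M : Type*} [CommMonoid M] (hC : IsLine P C) (hK₀ : K₀ ∈ nz C)
    (F : EPt P → M) : ∏ i ∈ Finset.Ico 1 P.p, F (i • K₀) = ∏ K ∈ nz C, F K :=
  sum_Ico_eq_sum_nz (M := Additive M) hC hK₀ F

/-- Velu's `x`-coordinate for the Frey curve and the line `⟨K₀⟩`. -/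
noncomputable def vX (P : FreyPackage) (K₀ S : EPt P) : Qbar := veluX (W0 P) K₀ P.p S

/-- Velu's `y`-coordinate. -/
noncomputable def vY (P : FreyPackage) (K₀ S : EPt P) : Qbar := veluY (W0 P) K₀ P.p S

theorem vX_eq (hC : IsLine P C) (hK₀ : K₀ ∈ nz C) (S : EPt P) :
    vX P K₀ S = xc S + ∑ K ∈ nz C, (xc (S + K) - xc K) := by
  rw [vX, veluX, sum_Ico_eq_sum_nz hC hK₀ (fun K => xc (S + K) - xc K)]

theorem vY_eq (hC : IsLine P C) (hK₀ : K₀ ∈ nz C) (S : EPt P) :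
    vY P K₀ S = yc S + ∑ K ∈ nz C, (yc (S + K) - yc K) := by
  rw [vY, veluY, sum_Ico_eq_sum_nz hC hK₀ (fun K => yc (S + K) - yc K)]

end Fermat.Agent.S12.Quot
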