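/-
S12 <= S15, block QUOT (architect helper9).  File `FrW`: invariants and base change of the curve
`frW A B` of Frey shape.
-/
import Fermat.Agent.S12.Defs

set_option autoImplicit false

namespace Fermat.Agent.S12

open WeierstrassCurve

local notation "Qbar" => AlgebraicClosure ℚ

variable {A B : ℤ}

theorem four_mul_frW_a₂ (h4 : (4 : ℤ) ∣ B - 1 - A) : 4 * (frW A B).a₂ = B - 1 - A := by
  change 4 * ((B - 1 - A) / 4) = B - 1 - A
  exact Int.mul_ediv_cancel' h4

theorem sixteen_mul_frW_a₄ (h16 : (16 : ℤ) ∣ A * B) : 16 * (frW A B).a₄ = -(A * B) := by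
  change 16 * (-A * B / 16) = -(A * B)
  have h : (16 : ℤ) ∣ -A * B := by
    rw [neg_mul]
    exact (dvd_neg).2 h16
  rw [Int.mul_ediv_cancel' h, neg_mul]

theorem frW_c₄ (h4 : (4 : ℤ) ∣ B - 1 - A) (h16 : (16 : ℤ) ∣ A * B) :
    (frW A B).c₄ = A ^ 2 + A * B + B ^ 2 := by
  have h2 := four_mul_frW_a₂ h4
  have h3 := sixteen_mul_frW_a₄ h16
  have e1 : (frW A B).a₁ = 1 := rfl
  have e3 : (frW A B).a₃ = 0 := rfl
  simp only [WeierstrassCurve.c₄, WeierstrassCurve.b₂, WeierstrassCurve.b₄, e1, e3]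
  generalize (frW A B).a₂ = s at h2
  generalize (frW A B).a₄ = t at h3
  have hB : B = 4 * s + 1 + A := by linarith
  subst hB
  linear_combination (-3 : ℤ) * h3

theorem frW_Δ (h4 : (4 : ℤ) ∣ B - 1 - A) (h16 : (16 : ℤ) ∣ A * B) :
    256 * (frW A B).Δ = (A * B * (A + B)) ^ 2 := by
  have h2 := four_mul_frW_a₂ h4
  have h3 := sixteen_mul_frW_a₄ h16
  have e1 : (frW A B).a₁ = 1 := rfl
  have e3 : (frW A B).a₃ = 0 := rfl
  have e6 : (frW A B).a₆ = 0 := rfl
  simp only [WeierstrassCurve.Δ, WeierstrassCurve.b₂, WeierstrassCurve.b₄, WeierstrassCurve.b₆,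
    WeierstrassCurve.b₈, e1, e3, e6]
  generalize (frW A B).a₂ = s at h2
  generalize (frW A B).a₄ = t at h3
  have hAB : A * B = -(16 * t) := by linarith
  have hs : A + B = 4 * s + 1 + 2 * A := by linarith
  have hsq : (A + B) ^ 2 = (4 * s + 1) ^ 2 - 64 * t := by
    have : (A + B) ^ 2 = (B - A) ^ 2 + 4 * (A * B) := by ring
    rw [this, hAB]
    have : B - A = 4 * s + 1 := by linarith
    rw [this]
    ring
  have : (A * B * (A + B)) ^ 2 = (A * B) ^ 2 * (A + B) ^ 2 := by ring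
  rw [this, hAB, hsq]
  ring

/-- the curve over `ℚ̄` on which the point of S15 lives. -/
noncomputable abbrev frWbar (A B : ℤ) : WeierstrassCurve Qbar :=
  ((frW A B).map (Int.castRingHom ℚ))⁄Qbar

theorem frWbar_a₁ : (frWbar A B).a₁ = 1 := by
  simp [frWbar, frW]

theorem frWbar_a₃ : (frWbar A B).a₃ = 0 := by
  simp [frWbar, frW]

theorem frWbar_a₆ : (frWbar A B).a₆ = 0 := by
  simp [frWbar, frW]

theorem frWbar_a₂ (h4 : (4 : ℤ) ∣ B - 1 - A) :
    (frWbar A B).a₂ = ((B : Qbar) - 1 - (A : Qbar)) / 4 := by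
  have h2 := four_mul_frW_a₂ h4
  have e : (frWbar A B).a₂ = (((frW A B).a₂ : ℤ) : Qbar) := by
    simp [frWbar]
  rw [e, eq_div_iff (by norm_num : (4 : Qbar) ≠ 0)]
  have h := congrArg (fun z : ℤ => (z : Qbar)) h2
  push_cast at h
  linear_combination h

theorem frWbar_a₄ (h16 : (16 : ℤ) ∣ A * B) :
    (frWbar A B).a₄ = -((A : Qbar) * (B : Qbar)) / 16 := by
  have h3 := sixteen_mul_frW_a₄ h16
  have e : (frWbar A B).a₄ = (((frW A B).a₄ : ℤ) : Qbar) := by
    simp [frWbar]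
  rw [e, eq_div_iff (by norm_num : (16 : Qbar) ≠ 0)]
  have h := congrArg (fun z : ℤ => (z : Qbar)) h3
  push_cast at h
  linear_combination h

end Fermat.Agent.S12
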