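/-
S12 <= S15, block QUOT (architect helper9).  File `Curve`: a curve `[1, a₂, 0, a₄, a₆]` over `ℚ̄`
whose `2`-division cubic has the roots `e₁, e₂, e₃`, translated by `(e₁, -e₁/2)`, is of Frey shape.
-/
import Fermat.Agent.S12.Quot.FrW
import Fermat.Agent.S12.PF.Bad
import Fermat.Agent.Lib.VarChange

set_option autoImplicit false

namespace Fermat.Agent.S12.Quot

open WeierstrassCurve Fermat.Agent.S05.XOnly

local notation "Qbar" => AlgebraicClosure ℚ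

/-- the translation by `(e, -e/2)`. -/
noncomputable def trans (e : Qbar) : VariableChange Qbar := ⟨1, e, 0, -e / 2⟩

/-- (`WeierstrassCurve.ext`; `variableChange_a₁ .. a₆`; `PF.b₂_eq_of_roots` with
`b₂ = 1 + 4 a₂`, `b₄ = 2 a₄`, `b₆ = 4 a₆`; `frWbar_a₁ .. a₆`.
`a₂ + 3 e₁ = 2e₁ - e₂ - e₃ - 1/4`, `a₄ + 2 e₁ a₂ + e₁/2 + 3 e₁² = (e₁ - e₂)(e₁ - e₃)`,
`a₆ + e₁ a₄ + e₁² a₂ + e₁³ + e₁²/4 = uu e₁ / 4 = 0`.) -/
theorem trans_smul_eq {W' : WeierstrassCurve Qbar} (h₁ : W'.a₁ = 1) (h₃ : W'.a₃ = 0)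
    {e₁ e₂ e₃ : Qbar} (r₁ : PF.uu W' e₁ = 0) (r₂ : PF.uu W' e₂ = 0) (r₃ : PF.uu W' e₃ = 0)
    (h₁₂ : e₁ ≠ e₂) (h₁₃ : e₁ ≠ e₃) (h₂₃ : e₂ ≠ e₃) {A B : ℤ}
    (hA : (A : Qbar) = 4 * (e₂ - e₁)) (hB : (B : Qbar) = 4 * (e₁ - e₃))
    (h4 : (4 : ℤ) ∣ B - 1 - A) (h16 : (16 : ℤ) ∣ A * B) :
    trans e₁ • W' = frWbar A B := by
  obtain ⟨hb2, hb4, hb6⟩ := PF.b₂_eq_of_roots (two_ne_zero) r₁ r₂ r₃ h₁₂ h₁₃ h₂₃
  rw [WeierstrassCurve.b₂, h₁] at hb2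
  rw [WeierstrassCurve.b₄, h₁, h₃] at hb4
  rw [WeierstrassCurve.b₆, h₃] at hb6
  have ha2 : W'.a₂ = -(e₁ + e₂ + e₃) - 1 / 4 := by linear_combination hb2 / 4
  have ha4 : W'.a₄ = e₁ * e₂ + e₁ * e₃ + e₂ * e₃ := by linear_combination hb4 / 2
  have ha6 : W'.a₆ = -(e₁ * e₂ * e₃) := by linear_combination hb6 / 4
  ext
  · rw [variableChange_a₁, frWbar_a₁, h₁]; simp [trans]
  · rw [variableChange_a₂, frWbar_a₂ h4, h₁, ha2, hA, hB]; simp [trans]; ring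
  · rw [variableChange_a₃, frWbar_a₃, h₁, h₃]; simp [trans]; ring
  · rw [variableChange_a₄, frWbar_a₄ h16, h₁, h₃, ha2, ha4, hA, hB]; simp [trans]; ring
  · rw [variableChange_a₆, frWbar_a₆, h₁, h₃, ha2, ha4, ha6]; simp [trans]; ring

/-- transport of a point. (`Lib.VarChange.pointEquiv`, `pointEquiv_some`,
`AddEquiv.addOrderOf_eq`.) -/
theorem exists_transport {W' W'' : WeierstrassCurve Qbar} (e : Qbar) (h : trans e • W' = W'')
    {S : W'.toAffine.Point} (hS : S ≠ 0) :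
    ∃ S' : W''.toAffine.Point, S' ≠ 0 ∧ addOrderOf S' = addOrderOf S ∧ xc S' = xc S - e ∧
      yc S' = yc S + e / 2 := by
  classical
  refine ⟨Lib.VarChange.pointEquiv (trans e) W' W'' h S, ?_, ?_, ?_⟩
  · exact fun h0 => hS ((AddEquiv.map_eq_zero_iff _).1 h0)
  · exact AddEquiv.addOrderOf_eq _ _
  · cases S with
    | zero => exact absurd rfl hS
    | some x y hxy =>
      obtain ⟨hxy', he⟩ := Lib.VarChange.pointEquiv_some (trans e) W' W'' h hxy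
      rw [he, xc_some, yc_some, xc_some, yc_some]
      constructor
      · simp [trans]
      · simp [trans]; ring

end Fermat.Agent.S12.Quot
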