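/-
S12 <= S15, block QUOT (architect helper9).  File `Galois`: Velu's coordinates for the cofixed line
`C = ⟨K₀⟩` of the Frey curve: Galois equivariance, invariance under translation by `C`.
-/
import Fermat.Agent.S12.Quot.Bridge

set_option autoImplicit false

namespace Fermat.Agent.S12.Quot

open WeierstrassCurve Fermat.Agent.S05.XOnly Fermat.Agent.Lib.Unif
open Fermat.Agent.S13 (EPt GQ)

local notation "Qbar" => AlgebraicClosure ℚ

variable {P : FreyPackage} {C : AddSubgroup (EPt P)} {K₀ : EPt P}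

/-- (`vX_eq`, `map_sum`, `xc_smul`, `smul_add`, reindex by `K ↦ σ • K` as in
`IsLine.map_sum_nz`.) -/
theorem map_vX (hC : IsLine P C) (hK₀ : K₀ ∈ nz C) (σ : GQ) (S : EPt P) :
    σ (vX P K₀ S) = vX P K₀ (σ • S) := by
  rw [vX_eq hC hK₀, vX_eq hC hK₀, map_add, map_sum, ← xc_smul]
  congr 1
  refine Finset.sum_nbij' (fun T => σ • T) (fun T => σ⁻¹ • T) (fun T hT => hC.smul_mem_nz σ hT)
    (fun T hT => hC.smul_mem_nz σ⁻¹ hT) (fun T _ => inv_smul_smul σ T)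
    (fun T _ => smul_inv_smul σ T) (fun T _ => ?_)
  rw [map_sub, ← xc_smul, ← xc_smul, smul_add_pt]

theorem map_vY (hC : IsLine P C) (hK₀ : K₀ ∈ nz C) (σ : GQ) (S : EPt P) :
    σ (vY P K₀ S) = vY P K₀ (σ • S) := by
  rw [vY_eq hC hK₀, vY_eq hC hK₀, map_add, map_sum, ← yc_smul]
  congr 1
  refine Finset.sum_nbij' (fun T => σ • T) (fun T => σ⁻¹ • T) (fun T hT => hC.smul_mem_nz σ hT)
    (fun T hT => hC.smul_mem_nz σ⁻¹ hT) (fun T _ => inv_smul_smul σ T)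
    (fun T _ => smul_inv_smul σ T) (fun T _ => ?_)
  rw [map_sub, ← yc_smul, ← yc_smul, smul_add_pt]

/-- (`PF.veluX_add_nsmul`, `IsLine.exists_nsmul_eq`.) -/
theorem vX_add (hC : IsLine P C) (hK₀ : K₀ ∈ nz C) (S : EPt P) {K : EPt P} (hK : K ∈ C) :
    vX P K₀ (S + K) = vX P K₀ S := by
  obtain ⟨k, -, rfl⟩ := hC.exists_nsmul_eq hK₀ hK
  exact PF.veluX_add_nsmul P.hppos (hC.tors K₀ (hC.mem_of_mem_nz hK₀)) S k

/-- (same proof as `PF.veluX_add_nsmul`: `veluY S = ∑_{i < p} y(S + iK₀) - ∑_{1 ≤ i < p} y(iK₀)`,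
`PF.sum_range_shift`.) -/
theorem vY_add (hC : IsLine P C) (hK₀ : K₀ ∈ nz C) (S : EPt P) {K : EPt P} (hK : K ∈ C) :
    vY P K₀ (S + K) = vY P K₀ S := by
  obtain ⟨k, -, rfl⟩ := hC.exists_nsmul_eq hK₀ hK
  have hN : 0 < P.p := P.hppos
  have hQ : P.p • K₀ = 0 := hC.tors K₀ (hC.mem_of_mem_nz hK₀)
  have key : ∀ T : EPt P, vY P K₀ T =
      ∑ i ∈ Finset.range P.p, yc (T + i • K₀) - ∑ i ∈ Finset.Ico 1 P.p, yc (i • K₀) := by
    intro T
    rw [vY, veluY, Finset.sum_sub_distrib, Finset.range_eq_Ico,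
      Finset.sum_eq_sum_Ico_succ_bot hN, zero_nsmul, add_zero, zero_add, add_sub_assoc]
  rw [key, key, ← PF.sum_range_shift hN hQ (fun x => yc (S + x)) k]
  congr 1
  refine Finset.sum_congr rfl fun i _ => ?_
  rw [add_smul, add_assoc, add_comm (k • K₀)]

/-- the coordinates of the image of a `p`-torsion point are rational.
(`map_vX`, `σ • R = R + (σ • R - R)`, `IsLine.cofixed`, `vX_add`.) -/
theorem map_vX_of_torsion (hC : IsLine P C) (hK₀ : K₀ ∈ nz C) (σ : GQ) {R : EPt P}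
    (hR : P.p • R = 0) : σ (vX P K₀ R) = vX P K₀ R := by
  rw [map_vX hC hK₀, ← vX_add hC hK₀ R (hC.cofixed σ R hR), add_sub_cancel]

theorem map_vY_of_torsion (hC : IsLine P C) (hK₀ : K₀ ∈ nz C) (σ : GQ) {R : EPt P}
    (hR : P.p • R = 0) : σ (vY P K₀ R) = vY P K₀ R := by
  rw [map_vY hC hK₀, ← vY_add hC hK₀ R (hC.cofixed σ R hR), add_sub_cancel]

/-- (`map_vX`.) -/
theorem map_vX_of_fixed (hC : IsLine P C) (hK₀ : K₀ ∈ nz C) (σ : GQ) {T : EPt P}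
    (hT : σ • T = T) : σ (vX P K₀ T) = vX P K₀ T := by
  rw [map_vX hC hK₀, hT]

end Fermat.Agent.S12.Quot
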