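/-
S12 <= S15, block QUOT (architect helper9).  File `Hom`: formal consequences of the existence of
Velu's isogeny `φ : W → veluCurve W Q N` (any field; `φ` is a hypothesis here).
-/
import Fermat.Agent.S12.PF.Pair
import Fermat.Agent.Lib.Unif.Velu.Alg

set_option autoImplicit false

namespace Fermat.Agent.S12.Quot

open WeierstrassCurve Fermat.Agent.S05.XOnly Fermat.Agent.Lib.Unif

variable {K : Type*} [Field K] [DecidableEq K] {W : WeierstrassCurve K}

/-- what we use of Velu's isogeny (provided by `Lib.Unif.exists_veluHom_of_embedding`). -/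
structure IsVeluHom (Q : W.toAffine.Point) (N : ℕ)
    (φ : W.toAffine.Point →+ (veluCurve W Q N).toAffine.Point) : Prop where
  ker : ∀ T, φ T = 0 ↔ T ∈ AddSubgroup.zmultiples Q
  xc_eq : ∀ T, T ∉ AddSubgroup.zmultiples Q → xc (φ T) = veluX W Q N T
  yc_eq : ∀ T, T ∉ AddSubgroup.zmultiples Q → yc (φ T) = veluY W Q N T

namespace IsVeluHom

variable {Q : W.toAffine.Point} {N : ℕ}
  {φ : W.toAffine.Point →+ (veluCurve W Q N).toAffine.Point}

/-- (`addOrderOf_eq_prime`.) -/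
theorem addOrderOf_eq (h : IsVeluHom Q N φ) (hN : N.Prime) {R : W.toAffine.Point}
    (hR : N • R = 0) (hRQ : R ∉ AddSubgroup.zmultiples Q) : addOrderOf (φ R) = N := by
  haveI : Fact N.Prime := ⟨hN⟩
  refine addOrderOf_eq_prime ?_ ?_
  · rw [← map_nsmul, hR, map_zero]
  · intro h0
    exact hRQ ((h.ker R).1 h0)

/-- a point of order two is not in `⟨Q⟩` (`N` odd). -/
theorem notMem_of_two_torsion (hN : Odd N) (hQ : N • Q = 0) {T : W.toAffine.Point}
    (hT : T ≠ 0) (h2 : 2 • T = 0) : T ∉ AddSubgroup.zmultiples Q := by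
  intro hmem
  obtain ⟨k, hk⟩ := AddSubgroup.mem_zmultiples_iff.1 hmem
  have h1 : N • T = 0 := by
    rw [← hk, ← natCast_zsmul, smul_comm, natCast_zsmul, hQ, smul_zero]
  obtain ⟨m, hm⟩ := hN
  rw [hm, add_nsmul, mul_nsmul, h2, smul_zero, zero_add, one_nsmul] at h1
  exact hT h1

theorem map_ne_zero (h : IsVeluHom Q N φ) (hN : Odd N) (hQ : N • Q = 0) {T : W.toAffine.Point}
    (hT : T ≠ 0) (h2 : 2 • T = 0) : φ T ≠ 0 := by
  intro h0
  exact notMem_of_two_torsion hN hQ hT h2 ((h.ker T).1 h0)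

/-- `veluX T` is a root of the `2`-division cubic of the quotient curve. (`PF.uu_eq_zero`.) -/
theorem uu_veluX (h : IsVeluHom Q N φ) (hN : Odd N) (hQ : N • Q = 0) {T : W.toAffine.Point}
    (hT : T ≠ 0) (h2 : 2 • T = 0) : PF.uu (veluCurve W Q N) (veluX W Q N T) = 0 := by
  have h1 : 2 • φ T = 0 := by rw [← map_nsmul, h2, map_zero]
  have h3 := PF.uu_eq_zero (h.map_ne_zero hN hQ hT h2) h1
  rwa [h.xc_eq T (notMem_of_two_torsion hN hQ hT h2)] at h3

/-- (`two_nsmul_eq_zero_iff` on the quotient curve.) -/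
theorem two_veluY (h : IsVeluHom Q N φ) (hN : Odd N) (hQ : N • Q = 0) {T : W.toAffine.Point}
    (hT : T ≠ 0) (h2 : 2 • T = 0) :
    2 * veluY W Q N T + W.a₁ * veluX W Q N T + W.a₃ = 0 := by
  have h1 : 2 • φ T = 0 := by rw [← map_nsmul, h2, map_zero]
  have h3 := (two_nsmul_eq_zero_iff (h.map_ne_zero hN hQ hT h2)).1 h1
  rwa [h.xc_eq T (notMem_of_two_torsion hN hQ hT h2),
    h.yc_eq T (notMem_of_two_torsion hN hQ hT h2)] at h3

/-- distinct points of order two have distinct images. (`eq_or_eq_neg_of_xc_eq`; `-φ T' = φ T'`;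
`φ (T - T') = 0`, `notMem_of_two_torsion` for `T - T'`.) -/
theorem veluX_ne (h : IsVeluHom Q N φ) (hN : Odd N) (hQ : N • Q = 0) {T T' : W.toAffine.Point}
    (hT : T ≠ 0) (h2 : 2 • T = 0) (hT' : T' ≠ 0) (h2' : 2 • T' = 0) (hne : T ≠ T') :
    veluX W Q N T ≠ veluX W Q N T' := by
  intro he
  have hx : xc (φ T) = xc (φ T') := by
    rw [h.xc_eq T (notMem_of_two_torsion hN hQ hT h2),
      h.xc_eq T' (notMem_of_two_torsion hN hQ hT' h2'), he]
  have h1' : 2 • φ T' = 0 := by rw [← map_nsmul, h2', map_zero]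
  have hneg : -φ T' = φ T' := by
    rw [neg_eq_iff_add_eq_zero, ← two_nsmul, h1']
  have heq : φ T = φ T' := by
    rcases eq_or_eq_neg_of_xc_eq (h.map_ne_zero hN hQ hT h2) (h.map_ne_zero hN hQ hT' h2') hx
      with h3 | h3
    · exact h3
    · rw [h3, hneg]
  have h0 : φ (T - T') = 0 := by rw [map_sub, heq, sub_self]
  refine notMem_of_two_torsion hN hQ (sub_ne_zero.2 hne) ?_ ((h.ker _).1 h0)
  rw [nsmul_sub, h2, h2', sub_zero]

end IsVeluHom

end Fermat.Agent.S12.Quot
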