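/-
S12 <= S15, block QUOT (architect helper9).  File `Main`: EXPORT of the block: the rational point
of order `p` on the curve of Frey shape `frW A' B'`, `A' = 4 (e₂' - e₁')`, `B' = 4 (e₁' - e₃')`,
`e_i' = vX P K₀ T_i`.
-/
import Fermat.Agent.S12.Quot.Hom
import Fermat.Agent.S12.Quot.Curve
import Fermat.Agent.S12.Quot.Galois
import Fermat.Agent.Lib.Unif.Descent

set_option autoImplicit false

namespace Fermat.Agent.S12.Quot

open WeierstrassCurve WeierstrassCurve.Affine Fermat.Agent.S05.XOnly Fermat.Agent.Lib.Unif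
open Fermat.Agent.S13 (EPt GQ)

local notation "Qbar" => AlgebraicClosure ℚ

variable {P : FreyPackage} {C : AddSubgroup (EPt P)} {K₀ : EPt P}

/-- Velu's isogeny for the Frey curve (block AN). -/
theorem exists_isVeluHom (P : FreyPackage) {K₀ : EPt P} (h0 : K₀ ≠ 0) (hp : P.p • K₀ = 0) :
    ∃ φ : (W0 P).toAffine.Point →+ (veluCurve (W0 P) K₀ P.p).toAffine.Point,
      IsVeluHom K₀ P.p φ := by
  obtain ⟨φ, h1, h2, -⟩ := by
    first
      | exact exists_veluHom_of_embedding S24.iota (S13.frey_Δ_ne_zero P) P.pp h0 hp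
      | exact exists_veluHom_of_embedding (S13.frey_Δ_ne_zero P) P.pp h0 hp
  exact ⟨φ, h1, fun T hT => (h2 T hT).1, fun T hT => (h2 T hT).2⟩

/-- the Galois action in coordinates, on any curve over `ℚ`. -/
theorem smul_eq_self_of_coords {W' : WeierstrassCurve ℚ} (σ : GQ) {T : (W'⁄Qbar).Point}
    (hx : σ (xc T) = xc T) (hy : σ (yc T) = yc T) : σ • T = T := by
  rcases T with _ | ⟨x, y, h⟩
  · rfl
  · have hx' : σ x = x := hx
    have hy' : σ y = y := hy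
    show Affine.Point.some (σ x) (σ y) _ = _
    simp only [hx', hy']

/-- **QUOT.** -/
theorem exists_quot (hC : IsLine P C) (hK₀ : K₀ ∈ nz C) {R : EPt P} (hR : P.p • R = 0)
    (hRC : R ∉ C) {A' B' : ℤ}
    (hA' : (A' : Qbar) = 4 * (vX P K₀ (T2 P) - vX P K₀ (T1 P)))
    (hB' : (B' : Qbar) = 4 * (vX P K₀ (T1 P) - vX P K₀ (T3 P)))
    (h4 : (4 : ℤ) ∣ B' - 1 - A') (h16 : (16 : ℤ) ∣ A' * B') :
    ∃ Q' : (((frW A' B').map (Int.castRingHom ℚ))⁄(AlgebraicClosure ℚ)).Point,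
      (∀ σ : AlgebraicClosure ℚ ≃ₐ[ℚ] AlgebraicClosure ℚ, σ • Q' = Q') ∧
      addOrderOf Q' = P.p ∧ Q' ≠ 0 ∧ xc Q' = vX P K₀ R - vX P K₀ (T1 P) := by
  have hK0 : K₀ ≠ 0 := hC.ne_zero_of_mem_nz hK₀
  have hpK : P.p • K₀ = 0 := hC.tors _ (hC.mem_of_mem_nz hK₀)
  obtain ⟨φ, hφ⟩ := exists_isVeluHom P hK0 hpK
  have hodd := P.hp_odd
  have hz := zmultiples_eq hC hK₀
  have hRz : R ∉ AddSubgroup.zmultiples K₀ := by rwa [hz]
  have hne : ∀ {T T' : EPt P}, xc T ≠ xc T' → T ≠ T' := fun h e => h (by rw [e])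
  have hcurve := trans_smul_eq (W' := veluCurve (W0 P) K₀ P.p)
    (by rw [veluCurve_a₁, S13.frey_a₁]; simp) (by rw [veluCurve_a₃, S13.frey_a₃])
    (hφ.uu_veluX hodd hpK (T1_ne_zero P) (two_nsmul_T1 P))
    (hφ.uu_veluX hodd hpK (T2_ne_zero P) (two_nsmul_T2 P))
    (hφ.uu_veluX hodd hpK (T3_ne_zero P) (two_nsmul_T3 P))
    (hφ.veluX_ne hodd hpK (T1_ne_zero P) (two_nsmul_T1 P) (T2_ne_zero P) (two_nsmul_T2 P)
      (hne (xc_T1_ne_xc_T2 P)))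
    (hφ.veluX_ne hodd hpK (T1_ne_zero P) (two_nsmul_T1 P) (T3_ne_zero P) (two_nsmul_T3 P)
      (hne (xc_T1_ne_xc_T3 P)))
    (hφ.veluX_ne hodd hpK (T2_ne_zero P) (two_nsmul_T2 P) (T3_ne_zero P) (two_nsmul_T3 P)
      (hne (xc_T2_ne_xc_T3 P)))
    hA' hB' h4 h16
  have hφR : φ R ≠ 0 := fun h => hRz ((hφ.ker R).1 h)
  obtain ⟨Q', hQ0, hord, hx, hy⟩ := exists_transport _ hcurve hφR
  rw [hφ.xc_eq R hRz] at hx
  rw [hφ.yc_eq R hRz] at hy
  refine ⟨Q', fun σ => ?_, ?_, hQ0, hx⟩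
  · have e1 : σ (vX P K₀ (T1 P)) = vX P K₀ (T1 P) := map_vX_of_fixed hC hK₀ σ (smul_T1 P σ)
    have e2 : σ (vX P K₀ R) = vX P K₀ R := map_vX_of_torsion hC hK₀ σ hR
    have e3 : σ (vY P K₀ R) = vY P K₀ R := map_vY_of_torsion hC hK₀ σ hR
    apply smul_eq_self_of_coords
    · rw [hx]
      show σ (vX P K₀ R - vX P K₀ (T1 P)) = _
      rw [map_sub, e1, e2]; rfl
    · rw [hy]
      show σ (vY P K₀ R + vX P K₀ (T1 P) / 2) = _
      rw [map_add, map_div₀, e1, e3, map_ofNat]; rfl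
  · rw [hord, hφ.addOrderOf_eq P.pp hR hRz]

end Fermat.Agent.S12.Quot
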