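/-
S12 <= S15, block QUOT (architect helper9).  File `HomMain`: EXPORT of the block in the form
consumed by `QD` (helper12): the quotient homomorphism from the Frey curve to the curve of Frey shape
`frW A' B'`, `A' = 4 (e₂' - e₁')`, `B' = 4 (e₁' - e₃')`, `e_i' = vX P K₀ T_i`, with its kernel,
its coordinates, its Galois equivariance and the norm formula.
-/
import Fermat.Agent.S12.Quot.Main
import Fermat.Agent.S12.PF.Main

set_option autoImplicit false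

namespace Fermat.Agent.S12.Quot

open WeierstrassCurve WeierstrassCurve.Affine Fermat.Agent.S05.XOnly Fermat.Agent.Lib.Unif
open Fermat.Agent.S13 (EPt GQ)

local notation "Qbar" => AlgebraicClosure ℚ

variable {P : FreyPackage} {C : AddSubgroup (EPt P)} {K₀ : EPt P}

/-- transport of points along a translation, as an additive equivalence. -/
theorem exists_transport_equiv {W' W'' : WeierstrassCurve Qbar} (e : Qbar)
    (h : trans e • W' = W'') :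
    ∃ Ψ : W'.toAffine.Point ≃+ W''.toAffine.Point, ∀ S : W'.toAffine.Point, S ≠ 0 →
      xc (Ψ S) = xc S - e ∧ yc (Ψ S) = yc S + e / 2 := by
  classical
  refine ⟨Lib.VarChange.pointEquiv (trans e) W' W'' h, fun S hS => ?_⟩
  cases S with
  | zero => exact absurd rfl hS
  | some x y hxy =>
    obtain ⟨hxy', he⟩ := Lib.VarChange.pointEquiv_some (trans e) W' W'' h hxy
    rw [he, xc_some, yc_some, xc_some, yc_some]
    constructor
    · simp [trans]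
    · simp [trans]; ring

/-- **QUOT, homomorphism form.** -/
theorem exists_hom (hC : IsLine P C) (hK₀ : K₀ ∈ nz C) {A' B' : ℤ}
    (hA' : (A' : Qbar) = 4 * (vX P K₀ (T2 P) - vX P K₀ (T1 P)))
    (hB' : (B' : Qbar) = 4 * (vX P K₀ (T1 P) - vX P K₀ (T3 P)))
    (h4 : (4 : ℤ) ∣ B' - 1 - A') (h16 : (16 : ℤ) ∣ A' * B') :
    ∃ ψ : EPt P →+ (((frW A' B').map (Int.castRingHom ℚ))⁄(AlgebraicClosure ℚ)).Point,
      (∀ T : EPt P, ψ T = 0 ↔ T ∈ C) ∧
      ∀ T : EPt P, T ∉ C → xc (ψ T) = vX P K₀ T - vX P K₀ (T1 P) ∧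
        yc (ψ T) = vY P K₀ T + vX P K₀ (T1 P) / 2 := by
  have hK0 : K₀ ≠ 0 := hC.ne_zero_of_mem_nz hK₀
  have hpK : P.p • K₀ = 0 := hC.tors _ (hC.mem_of_mem_nz hK₀)
  obtain ⟨φ, hφ⟩ := exists_isVeluHom P hK0 hpK
  have hodd := P.hp_odd
  have hz := zmultiples_eq hC hK₀
  have hne : ∀ {T T' : EPt P}, xc T ≠ xc T' → T ≠ T' := fun h e => h (by rw [e])
  have hcurve := trans_smul_eq (W' := veluCurve (W0 P) K₀ P.p)
    (by rw [veluCurve_a₁, S13.frey_a₁]; simp) (by rw [veluCurve_a₃, S13.frey_a₃])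
    (hφ.uu_veluX hodd hpK (T1_ne_zero P) (two_nsmul_T1 P))
    (hφ.uu_veluX hodd hpK (T2_ne_zero P) (two_nsmul_T2 P))
    (hφ.uu_veluX hodd hpK (T3_ne_zero P) (two_nsmul_T3 P))
    (hφ.veluX_ne hodd hpK (T1_ne_zero P) (two_nsmul_T1 P) (T2_ne_zero P) (two_nsmul_T2 P)
      (hne (xc_T1_ne_xc_T2 P)))
    (hφ.veluX_ne hodd hpK (T1_ne_zero P) (two_nsmul_T1 P) (T3_ne_zero P) (two_nsmul_T3 P)
      (hne (xc_T1_ne_xc_T3 P)))
    (hφ.veluX_ne hodd hpK (T2_ne_zero P) (two_nsmul_T2 P) (T3_ne_zero P) (two_nsmul_T3 P)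
      (hne (xc_T2_ne_xc_T3 P)))
    hA' hB' h4 h16
  obtain ⟨Ψ, hΨ⟩ := exists_transport_equiv _ hcurve
  refine ⟨Ψ.toAddMonoidHom.comp φ, fun T => ?_, fun T hT => ?_⟩
  · show Ψ (φ T) = 0 ↔ _
    rw [AddEquiv.map_eq_zero_iff, hφ.ker, hz]
  · have hTz : T ∉ AddSubgroup.zmultiples K₀ := by rwa [hz]
    have h0 : φ T ≠ 0 := fun h => hTz ((hφ.ker T).1 h)
    obtain ⟨h1, h2⟩ := hΨ (φ T) h0
    rw [hφ.xc_eq T hTz] at h1
    rw [hφ.yc_eq T hTz] at h2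
    exact ⟨h1, h2⟩

/-- Galois equivariance of any homomorphism with these coordinates. -/
theorem equivariant_of_coords (hC : IsLine P C) (hK₀ : K₀ ∈ nz C) {W' : WeierstrassCurve ℚ}
    {ψ : EPt P →+ (W'⁄Qbar).Point} (hker : ∀ T : EPt P, ψ T = 0 ↔ T ∈ C)
    (hco : ∀ T : EPt P, T ∉ C → xc (ψ T) = vX P K₀ T - vX P K₀ (T1 P) ∧
        yc (ψ T) = vY P K₀ T + vX P K₀ (T1 P) / 2) (σ : GQ) (T : EPt P) :
    ψ (σ • T) = σ • ψ T := by
  have xs : ∀ S : (W'⁄Qbar).Point, xc (σ • S) = σ (xc S) := by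
    rintro (_ | ⟨x, y, h⟩)
    · exact (map_zero σ).symm
    · rfl
  have ys : ∀ S : (W'⁄Qbar).Point, yc (σ • S) = σ (yc S) := by
    rintro (_ | ⟨x, y, h⟩)
    · exact (map_zero σ).symm
    · rfl
  by_cases hT : T ∈ C
  · rw [(hker T).2 hT, (hker _).2 (hC.stable σ T hT)]; rfl
  · have hσT : σ • T ∉ C := fun h => hT (by
      have := hC.stable σ⁻¹ _ h
      rwa [inv_smul_smul] at this)
    have h0 : ψ T ≠ 0 := fun h => hT ((hker T).1 h)
    have h0' : ψ (σ • T) ≠ 0 := fun h => hσT ((hker _).1 h)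
    have e1 : σ (vX P K₀ (T1 P)) = vX P K₀ (T1 P) := map_vX_of_fixed hC hK₀ σ (smul_T1 P σ)
    refine ext_xc_yc h0' (S13.smul_ne_zero σ h0) ?_ ?_
    · rw [xs, (hco T hT).1, (hco _ hσT).1, map_sub, e1, map_vX hC hK₀]
    · rw [ys, (hco T hT).2, (hco _ hσT).2, map_add, map_div₀, e1, map_vY hC hK₀, map_ofNat]

/-- (PF-ii) for every `S ∉ ⟨Q⟩` (algebraic: `PF.poly_identity` and `PF.prod_range_mul_sq`). -/
theorem pf_ii_all {K : Type*} [Field K] [DecidableEq K] [IsAlgClosed K] {W : WeierstrassCurve K}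
    {Q : W.toAffine.Point} {m : ℕ} (h02 : (2 : K) ≠ 0) (hΔ : W.Δ ≠ 0)
    (hQ : (2 * m + 1) • Q = 0) (hne : ∀ i ∈ Finset.Ico 1 (2 * m + 1), i • Q ≠ 0)
    {T : W.toAffine.Point} (hT0 : T ≠ 0) (hT2 : 2 • T = 0) {S : W.toAffine.Point}
    (hS : S ∉ AddSubgroup.zmultiples Q) :
    (veluX W Q (2 * m + 1) S - veluX W Q (2 * m + 1) T) *
        ∏ i ∈ Finset.Ico 1 (2 * m + 1), (xc (i • Q) - xc T) =
      ∏ i ∈ Finset.range (2 * m + 1), (xc (S + i • Q) - xc T) := by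
  have hT := PF.two_torsion_notMem hQ hT0 hT2
  have h1 := PF.prod_range_mul_sq h02 hQ hne hS hT0 hT2 hT
  have h2 := congrArg (Polynomial.eval (xc S)) (PF.poly_identity h02 hΔ hQ hne hT0 hT2 hT)
  simp only [Polynomial.eval_sub, Polynomial.eval_mul, Polynomial.eval_pow, Polynomial.eval_C,
    Polynomial.eval_X] at h2
  rw [PF.eval_PP hQ hne hS] at h2
  have h3 : (PF.DD Q m).eval (xc S) ^ 2 ≠ 0 := pow_ne_zero _ (PF.eval_DD_ne_zero hne hS)
  rw [PF.prod_Ico_eq_sq' hQ]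
  apply mul_right_cancel₀ h3
  rw [h1]
  linear_combination (Polynomial.eval (xc T) (PF.DD Q m)) ^ 2 * h2

/-- **the norm formula** in the form of `QD.norm`, for `vX`. -/
theorem norm_formula (hC : IsLine P C) (hK₀ : K₀ ∈ nz C) {T₀ : EPt P} (h0 : T₀ ≠ 0)
    (h2 : 2 • T₀ = 0) {T : EPt P} (hT : T ∉ C) :
    (vX P K₀ T - vX P K₀ T₀) * ∏ K ∈ nz C, (xc K - xc T₀) =
      (xc T - xc T₀) * ∏ K ∈ nz C, (xc (T + K) - xc T₀) := by
  have hpK : P.p • K₀ = 0 := hC.tors _ (hC.mem_of_mem_nz hK₀)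
  have hne := nsmul_ne_zero hC hK₀
  have hTz : T ∉ AddSubgroup.zmultiples K₀ := by rwa [zmultiples_eq hC hK₀]
  rw [← prod_Ico_eq_prod_nz hC hK₀ (fun K => xc K - xc T₀),
    ← prod_Ico_eq_prod_nz hC hK₀ (fun K => xc (T + K) - xc T₀)]
  unfold vX
  obtain ⟨m, hm⟩ := P.hp_odd
  rw [hm] at hpK hne ⊢
  rw [pf_ii_all (by norm_num) (S13.frey_Δ_ne_zero P) hpK hne h0 h2 hTz,
    Finset.prod_range_eq_mul_Ico _ (by omega), zero_nsmul, add_zero]

end Fermat.Agent.S12.Quot
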